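/-
Programme S33, brick A3'(a) (766) (helper34), part (i): **the `T`-linear embedding
`V ↪ (T ⊗[ℤ_p] M)^r`** — the first half of helper83's `Flat83.EigenEmbed.exists_embedding`, before
coordinates are chosen.

Same hypotheses as `Flat83.EigenEmbed.exists_embedding` (Hecke action `a` on the `ℤ_p`-module `M`
commuting with the Galois action `ρM`, Eichler–Shimura relation `hΦM`, determinant `hΦd`,
characteristic polynomials `hΦV`, Chebotarev density `hdense`, faithfulness `hker`, `2 ∈ Tˣ`,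
`hspan`).  Conclusion: an injective `T`-linear map `Ψ : V → (T ⊗[ℤ_p] M)^r` with
`Ψ (ρV g v) i = (ρM g).baseChange T (Ψ v i)`, with values in the Hecke eigenspace `eigen a π`.
-/
import Mathlib
import Fermat.Agent.Flat83.EigenEmbed

set_option autoImplicit false
set_option linter.unusedSectionVars false

noncomputable section

namespace Fermat.Agent.S33P.Embed34

open TensorProduct Polynomial Fermat.Agent.Flat83.EigenCH Fermat.Agent.Flat83.EigenFaith
  Fermat.Agent.Flat83.EigenEmbed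
open Fermat.Agent.ES.ALG.RelDense9 Fermat.Agent.ES.ALG31.TraceInv12

variable {p : ℕ} [hp : Fact p.Prime]
  {R : Type*} [CommRing R]
  {M : Type*} [AddCommGroup M] [Module ℤ_[p] M]
  {G : Type*} [Group G]
  {T : Type*} [CommRing T] [Algebra ℤ_[p] T]

section Main

variable [Module.Finite ℤ R] [Module.Free ℤ R] [IsReduced R]
  [Module.Finite ℤ_[p] M]
  [IsLocalRing T] [IsNoetherianRing T] [Module.Finite ℤ_[p] T] [Module.Free ℤ_[p] T]
  {V : Type*} [AddCommGroup V] [Module T V] [Module.Free T V] [Module.Finite T V]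
  [Module ℤ_[p] V] [IsScalarTower ℤ_[p] T V]

/-- **The `T`-linear embedding** `V ↪ (T ⊗[ℤ_p] M)^r`, equivariant for `(ρM g).baseChange T`, with
values in the Hecke eigenspace. -/
theorem exists_embedding_T
    (a : R →+* Module.End ℤ_[p] M) (ρM : G →* Module.End ℤ_[p] M) (d : G →* ℤ_[p]ˣ)
    (hpT : (p : T) ∈ IsLocalRing.maximalIdeal T)
    (π : R →+* T) (hV : Module.finrank T V = 2) (ρV : G →* Module.End T V)
    (Φ : G → ℕ → R → Prop)
    (hΦM : ∀ φ ℓ t, Φ φ ℓ t → a t = ρM φ + (ℓ : ℤ_[p]) • ρM φ⁻¹)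
    (hΦd : ∀ φ ℓ t, Φ φ ℓ t → ((d φ : ℤ_[p]ˣ) : ℤ_[p]) = ℓ)
    (hΦV : ∀ φ ℓ t, Φ φ ℓ t → (ρV φ).charpoly = X ^ 2 - C (π t) * X + C (ℓ : T))
    (hdense : ∀ (n m : ℕ) (g : G), ∃ φ ℓ t, ∃ j : ℕ, Φ φ ℓ t ∧
      EndCongr (IsLocalRing.maximalIdeal T ^ n) (ρV (g⁻¹ * φ ^ j)) 1 ∧
      EndCongr (Ideal.span {(p : ℤ_[p]) ^ m}) (ρM (g⁻¹ * φ ^ j)) 1 ∧
      ((d (g⁻¹ * φ ^ j) : ℤ_[p]ˣ) : ℤ_[p]) - 1 ∈ Ideal.span {(p : ℤ_[p]) ^ m})
    (hcomm : ∀ r g, Commute (a r) (ρM g))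
    (hker : ∀ (n : ℕ) (c : Fin n → ℤ_[p]) (r : Fin n → R),
      ∑ i, c i • a (r i) = 0 → ∑ i, c i • π (r i) = 0)
    (htwo : IsUnit (2 : T))
    (hspan : Submodule.span T (Set.range ρV) = ⊤) :
    ∃ (r : ℕ) (Ψ : V →ₗ[T] (Fin r → T ⊗[ℤ_[p]] M)), Function.Injective Ψ ∧
      (∀ (g : G) (v : V) (i : Fin r), Ψ (ρV g v) i = (ρM g).baseChange T (Ψ v i)) ∧
      ∀ (v : V) (i : Fin r), Ψ v i ∈ eigen a π := by
  classical
  -- finiteness of the eigenspace
  have hN : IsNoetherian T (T ⊗[ℤ_[p]] M) := isNoetherian_of_isNoetherianRing_of_finite T _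
  have hfinX : Module.Finite T (eigen a π) := Module.IsNoetherian.finite T _
  -- the Cayley–Hamilton relation
  have hrel : ∀ g, rhoX a π ρM hcomm g + LinearMap.det (ρV g) • rhoX a π ρM hcomm g⁻¹ =
      LinearMap.trace T V (ρV g) • (1 : Module.End T (eigen a π)) := by
    intro g
    refine LinearMap.ext fun x => Subtype.ext ?_
    have h1 := eigen_CH a ρM d hpT π hV ρV Φ hΦM hΦd hΦV hdense g x.2
    have h2 := det_eq ρM d hpT π hV ρV Φ hΦd hΦV hdense g
    rw [LinearMap.add_apply, LinearMap.smul_apply, LinearMap.smul_apply, Module.End.one_apply,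
      Submodule.coe_add, Submodule.coe_smul, Submodule.coe_smul, coe_rhoX, coe_rhoX, h2,
      algebraMap_smul, ← h1]
    unfold W
    rw [LinearMap.baseChange_add, LinearMap.baseChange_smul, LinearMap.add_apply,
      LinearMap.smul_apply]
  -- faithfulness
  have hfaith : ∀ c : T, (∀ x : eigen a π, c • x = 0) → c = 0 := by
    intro c hc
    refine eigen_faithful a π hker c fun x hx => ?_
    have := congrArg Subtype.val (hc ⟨x, hx⟩)
    exact this
  obtain ⟨r, Ψ0, hinj, heq⟩ := Fermat.Agent.Flat83.CarayolBLR.exists_injective_equivariant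
    (X := eigen a π) ρV (rhoX a π ρM hcomm) hrel hV htwo hspan hfaith
  let Ψ : V →ₗ[T] (Fin r → T ⊗[ℤ_[p]] M) :=
    LinearMap.pi fun i => (eigen a π).subtype ∘ₗ LinearMap.proj i ∘ₗ Ψ0
  have hΨ : ∀ v i, Ψ v i = ((Ψ0 v i : eigen a π) : T ⊗[ℤ_[p]] M) := fun _ _ => rfl
  refine ⟨r, Ψ, ?_, ?_, ?_⟩
  · intro v w hvw
    apply hinj
    funext i
    apply Subtype.ext
    have := congrFun hvw i
    rwa [hΨ, hΨ] at this
  · intro g v i
    rw [hΨ, hΨ, heq, coe_rhoX]
  · intro v i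
    rw [hΨ]
    exact (Ψ0 v i).2

end Main

end Fermat.Agent.S33P.Embed34
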